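import Mathlib

/-!
# S15/S (ADM, abstract part; Mathlib only): an eigenvector for a representation all of whose elements satisfy `(σ - 1)^n (σ - χ σ)^n = 0`

`V` a finite nontrivial abelian group killed by the prime `r`, `ρ : Γ →* End V`, `χ : Γ →* (ℤ/r)ˣ`.
* `exists_fixed_of_unipotent`: if every `ρ σ - 1` is nilpotent there is a nonzero fixed vector.
  (`(ρ σ) ^ (r ^ j) = 1` for `r ^ j ≥ n`: in the ring `End V` we have `(r : End V) = 0`, i.e. `CharP (End V) r`; `sub_pow_char_pow`/`sub_pow_expChar_pow` for the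
  commuting elements `ρ σ`, `1`.  The image of `Γ` in the units of `End V` is an `r`-group acting on `V`; `#V` is divisible by `r`;
  `IsPGroup.exists_fixed_point_of_prime_dvd_card_of_fixed_point` with the fixed point `0`.)
* `exists_last_nonzero`: `A ∈ End V`, `X` a subgroup stable under `A`, `0 ≠ x ∈ X`, `(A - 1)^n * (A - k)^n = 0`.  Then some `0 ≠ y ∈ X` has `A y = y` or `A y = k • y`.
* `exists_eigen`: `Γ₁ := χ.ker`; `X := {v | ∀ σ ∈ Γ₁, ρ σ v = v}` is nonzero and stable under `Γ` (`Γ₁` is normal).  `χ.range` is cyclic, generated by `χ g₀`.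
  Second item for `A = ρ g₀`, `k = (χ g₀).val`: `y`.  Every `σ` is `g₀ ^ i * γ` with `γ ∈ Γ₁`.
-/

set_option autoImplicit false

namespace Fermat.Agent.S15.Sel

private theorem Eigen_mul_apply {V : Type*} [AddCommGroup V] (f g : AddMonoid.End V) (v : V) :
    (f * g) v = f (g v) := rfl

private theorem Eigen_charP {V : Type*} [AddCommGroup V] [Nontrivial V] (r : ℕ) (hr : r.Prime)
    (hV : ∀ v : V, r • v = 0) : CharP (AddMonoid.End V) r := by
  have : Nontrivial (AddMonoid.End V) := by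
    obtain ⟨v, hv⟩ := exists_ne (0 : V)
    refine ⟨⟨1, 0, fun h => hv ?_⟩⟩
    have := DFunLike.congr_fun h v
    simpa using this
  rw [CharP.charP_iff_prime_eq_zero hr]
  ext v
  simp [hV]

private theorem Eigen_pow_eq_one {V : Type*} [AddCommGroup V] [Nontrivial V] (r : ℕ)
    (hr : r.Prime) (hV : ∀ v : V, r • v = 0) (a : AddMonoid.End V) (n : ℕ)
    (h : (a - 1) ^ n = 0) : a ^ r ^ n = 1 := by
  have := Eigen_charP r hr hV
  have : Fact r.Prime := ⟨hr⟩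
  have h1 : (a - 1) ^ r ^ n = a ^ r ^ n - 1 ^ r ^ n :=
    sub_pow_char_pow_of_commute r n (Commute.one_right a)
  have h2 : (a - 1) ^ r ^ n = 0 := pow_eq_zero_of_le (Nat.lt_pow_self hr.one_lt).le h
  rw [h2, one_pow] at h1
  exact sub_eq_zero.1 h1.symm

theorem exists_fixed_of_unipotent {Γ V : Type*} [Group Γ] [AddCommGroup V] [Finite V] [Nontrivial V]
    (r : ℕ) (hr : r.Prime) (hV : ∀ v : V, r • v = 0) (ρ : Γ →* AddMonoid.End V)
    (hnil : ∀ σ : Γ, ∃ n : ℕ, (ρ σ - 1) ^ n = 0) :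
    ∃ v : V, v ≠ 0 ∧ ∀ σ : Γ, ρ σ v = v := by
  have : Fact r.Prime := ⟨hr⟩
  set G : Subgroup (AddMonoid.End V)ˣ := ρ.toHomUnits.range with hG
  have hP : IsPGroup r G := by
    rintro ⟨g, σ, rfl⟩
    obtain ⟨n, hn⟩ := hnil σ
    refine ⟨n, ?_⟩
    apply Subtype.ext
    apply Units.ext
    simpa using Eigen_pow_eq_one r hr hV (ρ σ) n hn
  have hcard : r ∣ Nat.card V := by
    obtain ⟨v, hv⟩ := exists_ne (0 : V)
    have h1 : addOrderOf v = r := addOrderOf_eq_prime (hV v) hv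
    rw [← h1]
    exact addOrderOf_dvd_natCard v
  have h0 : (0 : V) ∈ MulAction.fixedPoints G V := by
    intro g
    show ((g : (AddMonoid.End V)ˣ) : AddMonoid.End V) 0 = 0
    exact map_zero _
  obtain ⟨b, hb, hb0⟩ := hP.exists_fixed_point_of_prime_dvd_card_of_fixed_point V hcard h0
  refine ⟨b, hb0.symm, fun σ => ?_⟩
  exact hb ⟨ρ.toHomUnits σ, σ, rfl⟩

private theorem Eigen_pow_mem {V : Type*} [AddCommGroup V] (B : AddMonoid.End V)
    (X : AddSubgroup V) (hX : ∀ x ∈ X, B x ∈ X) (n : ℕ) (x : V) (hx : x ∈ X) :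
    (B ^ n) x ∈ X := by
  induction n generalizing x with
  | zero => simpa using hx
  | succ n ih =>
    rw [pow_succ, Eigen_mul_apply]
    exact ih _ (hX x hx)

private theorem Eigen_last {V : Type*} [AddCommGroup V] (B : AddMonoid.End V)
    (X : AddSubgroup V) (hX : ∀ x ∈ X, B x ∈ X) (n : ℕ) (x : V) (hx : x ∈ X) (hx0 : x ≠ 0)
    (h : (B ^ n) x = 0) : ∃ y ∈ X, y ≠ 0 ∧ B y = 0 := by
  induction n generalizing x with
  | zero => exact absurd (by simpa using h) hx0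
  | succ n ih =>
    by_cases hB : B x = 0
    · exact ⟨x, hx, hx0, hB⟩
    · rw [pow_succ, Eigen_mul_apply] at h
      exact ih _ (hX x hx) hB h

theorem exists_last_nonzero {V : Type*} [AddCommGroup V] (A : AddMonoid.End V) (k n : ℕ)
    (hA : (A - 1) ^ n * (A - (k : AddMonoid.End V)) ^ n = 0) (X : AddSubgroup V)
    (hX : ∀ x ∈ X, A x ∈ X) (x : V) (hx : x ∈ X) (hx0 : x ≠ 0) :
    ∃ y ∈ X, y ≠ 0 ∧ (A y = y ∨ A y = k • y) := by
  have e1 : ∀ y : V, (A - 1) y = A y - y := fun y => rfl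
  have e2 : ∀ y : V, (A - (k : AddMonoid.End V)) y = A y - k • y := fun y => by
    show A y - (k : AddMonoid.End V) y = _
    rw [AddMonoid.End.natCast_apply]
  have hX1 : ∀ y ∈ X, (A - 1) y ∈ X := fun y hy => by
    rw [e1]; exact X.sub_mem (hX y hy) hy
  have hX2 : ∀ y ∈ X, (A - (k : AddMonoid.End V)) y ∈ X := fun y hy => by
    rw [e2]; exact X.sub_mem (hX y hy) (X.nsmul_mem hy k)
  by_cases hw : ((A - (k : AddMonoid.End V)) ^ n) x = 0
  · obtain ⟨y, hy, hy0, h⟩ := Eigen_last _ X hX2 n x hx hx0 hw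
    rw [e2] at h
    exact ⟨y, hy, hy0, Or.inr (sub_eq_zero.1 h)⟩
  · have h1 : ((A - 1) ^ n) (((A - (k : AddMonoid.End V)) ^ n) x) = 0 := by
      rw [← Eigen_mul_apply, hA]
      rfl
    obtain ⟨y, hy, hy0, h⟩ := Eigen_last _ X hX1 n _ (Eigen_pow_mem _ X hX2 n x hx) hw h1
    rw [e1] at h
    exact ⟨y, hy, hy0, Or.inl (sub_eq_zero.1 h)⟩

/-- the elements of `Γ` which act on `y` through the character `ψ`. -/
private def Eigen_sub {Γ V : Type*} [Group Γ] [AddCommGroup V] (r : ℕ) [Module (ZMod r) V]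
    (ρ : Γ →* AddMonoid.End V) (ψ : Γ →* (ZMod r)ˣ) (y : V) : Subgroup Γ where
  carrier := {g | ρ g y = ((ψ g : (ZMod r)ˣ) : ZMod r) • y}
  one_mem' := by
    show ρ 1 y = ((ψ 1 : (ZMod r)ˣ) : ZMod r) • y
    simp
  mul_mem' := by
    intro g h hg hh
    show ρ (g * h) y = ((ψ (g * h) : (ZMod r)ˣ) : ZMod r) • y
    have hg' : ρ g y = ((ψ g : (ZMod r)ˣ) : ZMod r) • y := hg
    have hh' : ρ h y = ((ψ h : (ZMod r)ˣ) : ZMod r) • y := hh
    rw [map_mul, Eigen_mul_apply, hh', ZMod.map_smul, hg', smul_smul, map_mul,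
      Units.val_mul, mul_comm]
  inv_mem' := by
    intro g hg
    show ρ g⁻¹ y = ((ψ g⁻¹ : (ZMod r)ˣ) : ZMod r) • y
    have hg' : ρ g y = ((ψ g : (ZMod r)ˣ) : ZMod r) • y := hg
    have h1 : ρ g⁻¹ (ρ g y) = y := by
      rw [← Eigen_mul_apply, ← map_mul, inv_mul_cancel, map_one]
      rfl
    rw [hg', ZMod.map_smul] at h1
    conv_rhs => rw [← h1]
    rw [smul_smul, map_inv ψ g, Units.inv_mul, one_smul]

theorem exists_eigen {Γ V : Type*} [Group Γ] [AddCommGroup V] [Finite V] [Nontrivial V]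
    (r : ℕ) (hr : r.Prime) (hV : ∀ v : V, r • v = 0) (ρ : Γ →* AddMonoid.End V)
    (χ : Γ →* (ZMod r)ˣ)
    (hnil : ∀ σ : Γ, ∃ n : ℕ,
      (ρ σ - 1) ^ n * (ρ σ - (((χ σ : (ZMod r)ˣ) : ZMod r).val : AddMonoid.End V)) ^ n = 0) :
    ∃ v : V, v ≠ 0 ∧
      ((∀ σ : Γ, ρ σ v = v) ∨ (∀ σ : Γ, ρ σ v = ((χ σ : (ZMod r)ˣ) : ZMod r).val • v)) := by
  have : Fact r.Prime := ⟨hr⟩
  have : Fact (1 < r) := ⟨hr.one_lt⟩
  letI : Module (ZMod r) V := AddCommGroup.zmodModule hV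
  have hval : ∀ (a : ZMod r) (v : V), a.val • v = a • v := by
    intro a v
    rw [← Nat.cast_smul_eq_nsmul (ZMod r), ZMod.natCast_zmod_val]
  -- the vectors fixed by the kernel of `χ`
  let X : AddSubgroup V :=
    { carrier := {v | ∀ σ ∈ χ.ker, ρ σ v = v}
      zero_mem' := fun σ _ => map_zero _
      add_mem' := fun {a b} ha hb σ hσ => by rw [map_add, ha σ hσ, hb σ hσ]
      neg_mem' := fun {a} ha σ hσ => by rw [map_neg, ha σ hσ] }
  have hXmem : ∀ v, v ∈ X ↔ ∀ σ ∈ χ.ker, ρ σ v = v := fun v => Iff.rfl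
  obtain ⟨x, hx0, hx⟩ := exists_fixed_of_unipotent r hr hV (ρ.comp χ.ker.subtype) (by
    rintro ⟨σ, hσ⟩
    obtain ⟨n, hn⟩ := hnil σ
    refine ⟨n + n, ?_⟩
    have h1 : χ σ = 1 := hσ
    rw [h1, Units.val_one, ZMod.val_one, Nat.cast_one, ← pow_add] at hn
    exact hn)
  have hxX : x ∈ X := fun σ hσ => hx ⟨σ, hσ⟩
  have hstab : ∀ (g : Γ), ∀ v ∈ X, ρ g v ∈ X := by
    intro g v hv σ hσ
    have h1 : g⁻¹ * σ * g ∈ χ.ker := by
      have := (inferInstance : χ.ker.Normal).conj_mem σ hσ g⁻¹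
      simpa using this
    have h2 := hv _ h1
    calc ρ σ (ρ g v) = ρ (g * (g⁻¹ * σ * g)) v := by
          rw [← Eigen_mul_apply, ← map_mul]
          congr 2
          group
      _ = ρ g v := by rw [map_mul, Eigen_mul_apply, h2]
  -- a generator of the image of `χ`
  obtain ⟨⟨c, g₀, rfl⟩, hgen⟩ := IsCyclic.exists_generator (α := χ.range)
  have hdec : ∀ (S : Subgroup Γ), χ.ker ≤ S → g₀ ∈ S → ∀ σ, σ ∈ S := by
    intro S hker hg₀ σ
    obtain ⟨i, hi⟩ := Subgroup.mem_zpowers_iff.1 (hgen ⟨χ σ, σ, rfl⟩)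
    have hi' : χ g₀ ^ i = χ σ := by
      have := congrArg Subtype.val hi
      simpa using this
    have h1 : (g₀ ^ i)⁻¹ * σ ∈ χ.ker := by
      rw [MonoidHom.mem_ker, map_mul, map_inv, map_zpow, hi', inv_mul_cancel]
    have h2 := S.mul_mem (S.zpow_mem hg₀ i) (hker h1)
    rwa [mul_inv_cancel_left] at h2
  obtain ⟨n, hn⟩ := hnil g₀
  obtain ⟨y, hyX, hy0, hy⟩ := exists_last_nonzero (ρ g₀) _ n hn X (hstab g₀) x hxX hx0
  refine ⟨y, hy0, ?_⟩
  rcases hy with hy | hy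
  · left
    intro σ
    have h := hdec (Eigen_sub r ρ 1 y) (fun γ hγ => by
      show ρ γ y = (((1 : Γ →* (ZMod r)ˣ) γ : (ZMod r)ˣ) : ZMod r) • y
      rw [hyX γ hγ]; simp) (by
      show ρ g₀ y = (((1 : Γ →* (ZMod r)ˣ) g₀ : (ZMod r)ˣ) : ZMod r) • y
      rw [hy]; simp) σ
    have h' : ρ σ y = (((1 : Γ →* (ZMod r)ˣ) σ : (ZMod r)ˣ) : ZMod r) • y := h
    rw [h']; simp
  · right
    intro σ
    have h := hdec (Eigen_sub r ρ χ y) (fun γ hγ => by
      show ρ γ y = ((χ γ : (ZMod r)ˣ) : ZMod r) • y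
      have h1 : χ γ = 1 := hγ
      rw [hyX γ hγ, h1]; simp) (by
      show ρ g₀ y = ((χ g₀ : (ZMod r)ˣ) : ZMod r) • y
      rw [hy, hval]) σ
    have h' : ρ σ y = ((χ σ : (ZMod r)ˣ) : ZMod r) • y := h
    rw [h', hval]

end Fermat.Agent.S15.Sel
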