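import Fermat.Agent.S15.Sel.Defs
import Fermat.Agent.S15.Sel.Adm.Eigen

/-!
# S15/S (ADM, abstract part): a Galois stable subgroup of index `r` with quotient `ℤ/r` or `μ_r`

`G ≤ J` finite, `≠ ⊥`, killed by `r`, Galois stable, with `NilCond r ζ G` (hypothesis (a'): `(σ - 1)^n (σ - k)^n = 0` on `G` whenever `σ ζ = ζ ^ k`).
Apply `exists_eigen` to the DUAL `V := (↥G →+ ZMod r)`:
* `V` is finite (`↥G → ZMod r` is finite, `DFunLike.coe` injective), killed by `r`, nontrivial (`↥G` is a nonzero `ZMod r`-vector space via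
  `AddCommGroup.zmodModule`; a nonzero vector is not killed by all linear forms: `Module.forall_dual_apply_eq_zero_iff` / `exists_dual_...`;
  a `ZMod r`-linear map is in particular additive: `LinearMap.toAddMonoidHom`);
* `res σ : AddMonoid.End ↥G` the restricted action, `ρ σ := fun lam => lam.comp (res σ⁻¹)` is a monoid homomorphism `GQ →* AddMonoid.End V`;
* `χ₀ := hζ.autToPow ℚ : GQ →* (ZMod r)ˣ` (`IsPrimitiveRoot.autToPow_spec : ζ ^ (χ₀ σ).val = σ ζ`; needs `NeZero r`), `χ := χ₀⁻¹`;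
* nilpotency: `NilCond` for `σ⁻¹` and `k := (χ₀ σ⁻¹).val = (χ σ).val`; `(ρ σ - c) lam = lam.comp (res σ⁻¹ - c)`, so
  `((ρ σ - 1)^n * (ρ σ - k)^n) lam = lam.comp ((res σ⁻¹ - k)^n * (res σ⁻¹ - 1)^n)`, the two factors commute, and
  `(((res τ - 1)^n * (res τ - k)^n) g : J) = D₁^[n] (D_k^[n] g)`.
Result: `lam ≠ 0` with `lam (σ⁻¹ x) = lam x` for all `σ`, or `lam (σ⁻¹ x) = (χ₀ σ)⁻¹ * lam x` for all `σ`; replace `σ` by `σ⁻¹`.
`H' := (ker lam).map G.subtype`, `ι x := if h : x ∈ G then ζ ^ (lam ⟨x, h⟩).val else 1`.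
`map_add`: `ZMod.val_add`, `pow_mod`-type (`ζ ^ r = 1`: `pow_eq_pow_mod`); `ker`: `IsPrimitiveRoot.pow_eq_one_iff_dvd`, `ZMod.val_lt`;
`equiv`: `σ (ζ ^ a.val) = (ζ ^ (χ₀ σ).val) ^ a.val = ζ ^ ((χ₀ σ) * a).val` (`ZMod.val_mul`).
`H' < G` because `lam ≠ 0`.
-/

set_option autoImplicit false

namespace Fermat.Agent.S15.Sel

open Fermat.Agent.Lib.InertiaField Fermat.Agent.S15.Q

variable {J : Type*} [AddCommGroup J] [DistribMulAction GQ J]

/-- hypothesis (a'): `(σ - 1)^n (σ - k)^n = 0` on `G` whenever `σ ζ = ζ ^ k` -/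
def NilCond (ζ : Qb) (G : AddSubgroup J) : Prop :=
  ∀ (σ : GQ) (k : ℕ), σ ζ = ζ ^ k → ∃ n : ℕ, ∀ g ∈ G,
    (fun x : J => σ • x - x)^[n] ((fun x : J => σ • x - k • x)^[n] g) = 0

theorem NilCond.mono {ζ : Qb} {G H : AddSubgroup J} (h : NilCond ζ G) (hle : H ≤ G) : NilCond ζ H :=
  fun σ k hk => (h σ k hk).imp fun _ hn g hg => hn g (hle hg)

/-! ### auxiliary constructions -/

/-- the restricted action on a stable subgroup -/
noncomputable def topRes (G : AddSubgroup J) (stable : ∀ (σ : GQ), ∀ g ∈ G, σ • g ∈ G) :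
    GQ →* AddMonoid.End ↥G where
  toFun σ :=
    { toFun := fun g => ⟨σ • (g : J), stable σ g g.2⟩
      map_zero' := Subtype.ext (smul_zero σ)
      map_add' := fun a b => Subtype.ext (smul_add σ (a : J) (b : J)) }
  map_one' := AddMonoidHom.ext fun g => Subtype.ext (one_smul GQ (g : J))
  map_mul' σ τ := AddMonoidHom.ext fun g => Subtype.ext (mul_smul σ τ (g : J))

theorem coe_topRes (G : AddSubgroup J) (stable : ∀ (σ : GQ), ∀ g ∈ G, σ • g ∈ G) (σ : GQ)
    (g : ↥G) : ((topRes G stable σ g : ↥G) : J) = σ • (g : J) := rfl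

/-- the transpose of an endomorphism -/
def topDual {X : Type*} [AddCommGroup X] (r : ℕ) (a : AddMonoid.End X) :
    AddMonoid.End (X →+ ZMod r) where
  toFun lam := lam.comp a
  map_zero' := AddMonoidHom.zero_comp a
  map_add' l l' := AddMonoidHom.add_comp l l' a

section topDual

variable {X : Type*} [AddCommGroup X] (r : ℕ)

theorem topDual_apply (a : AddMonoid.End X) (lam : X →+ ZMod r) (x : X) :
    topDual r a lam x = lam (a x) := rfl

theorem topDual_one : topDual r (1 : AddMonoid.End X) = 1 := rfl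

theorem topDual_zero : topDual r (0 : AddMonoid.End X) = 0 :=
  AddMonoidHom.ext fun lam => AddMonoidHom.ext fun _ => map_zero lam

theorem topDual_mul (a b : AddMonoid.End X) : topDual r (a * b) = topDual r b * topDual r a := rfl

theorem topDual_sub (a b : AddMonoid.End X) : topDual r (a - b) = topDual r a - topDual r b :=
  AddMonoidHom.ext fun lam => AddMonoidHom.ext fun x => map_sub lam (a x) (b x)

theorem topDual_natCast (k : ℕ) :
    topDual r (k : AddMonoid.End X) = (k : AddMonoid.End (X →+ ZMod r)) :=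
  AddMonoidHom.ext fun lam => AddMonoidHom.ext fun x => by
    show lam ((k : AddMonoid.End X) x) = ((k : AddMonoid.End (X →+ ZMod r)) lam) x
    rw [AddMonoid.End.natCast_apply, AddMonoid.End.natCast_apply, map_nsmul]
    rfl

theorem topDual_pow (a : AddMonoid.End X) (n : ℕ) : topDual r (a ^ n) = topDual r a ^ n := by
  induction n with
  | zero => rw [pow_zero, pow_zero, topDual_one]
  | succ n ih => rw [pow_succ, topDual_mul, ih, pow_succ']

end topDual

/-- the contragredient action on the dual -/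
noncomputable def topRho (r : ℕ) (G : AddSubgroup J) (stable : ∀ (σ : GQ), ∀ g ∈ G, σ • g ∈ G) :
    GQ →* AddMonoid.End (↥G →+ ZMod r) where
  toFun σ := topDual r (topRes G stable σ⁻¹)
  map_one' := by rw [inv_one, map_one, topDual_one]
  map_mul' σ τ := by rw [mul_inv_rev, map_mul, topDual_mul]

theorem topRho_apply (r : ℕ) (G : AddSubgroup J) (stable : ∀ (σ : GQ), ∀ g ∈ G, σ • g ∈ G)
    (σ : GQ) (lam : ↥G →+ ZMod r) (g : ↥G) :
    topRho r G stable σ lam g = lam (topRes G stable σ⁻¹ g) := rfl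

/-- the iterates of `res τ - k` -/
theorem coe_topRes_sub_pow (G : AddSubgroup J) (stable : ∀ (σ : GQ), ∀ g ∈ G, σ • g ∈ G) (τ : GQ)
    (k n : ℕ) (g : ↥G) :
    ((((topRes G stable τ - (k : AddMonoid.End ↥G)) ^ n) g : ↥G) : J) =
      (fun x : J => τ • x - k • x)^[n] (g : J) := by
  rw [AddMonoid.End.coe_pow]
  have h : Function.Semiconj (Subtype.val : ↥G → J)
      (⇑(topRes G stable τ - (k : AddMonoid.End ↥G))) (fun x : J => τ • x - k • x) := by
    intro x
    show (((topRes G stable τ x - (k : AddMonoid.End ↥G) x : ↥G)) : J) = _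
    rw [AddMonoid.End.natCast_apply]
    rfl
  exact h.iterate_right n g

theorem topRes_nil {ζ : Qb} (G : AddSubgroup J) (stable : ∀ (σ : GQ), ∀ g ∈ G, σ • g ∈ G)
    (hnil : NilCond ζ G) (τ : GQ) (k : ℕ) (hk : τ ζ = ζ ^ k) :
    ∃ n : ℕ, (topRes G stable τ - 1) ^ n * (topRes G stable τ - (k : AddMonoid.End ↥G)) ^ n = 0 := by
  obtain ⟨n, hn⟩ := hnil τ k hk
  refine ⟨n, AddMonoidHom.ext fun g => Subtype.ext ?_⟩
  have h1 := coe_topRes_sub_pow G stable τ 1 n
    (((topRes G stable τ - (k : AddMonoid.End ↥G)) ^ n) g)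
  rw [Nat.cast_one, coe_topRes_sub_pow] at h1
  have h2 := hn g g.2
  simp only [one_smul] at h1
  show ((((topRes G stable τ - 1) ^ n)
    (((topRes G stable τ - (k : AddMonoid.End ↥G)) ^ n) g) : ↥G) : J) = 0
  rw [h1, h2]

theorem topRho_nil {ζ : Qb} (r : ℕ) (G : AddSubgroup J)
    (stable : ∀ (σ : GQ), ∀ g ∈ G, σ • g ∈ G) (hnil : NilCond ζ G) (σ : GQ) (k : ℕ)
    (hk : σ⁻¹ ζ = ζ ^ k) :
    ∃ n : ℕ, (topRho r G stable σ - 1) ^ n *
      (topRho r G stable σ - (k : AddMonoid.End (↥G →+ ZMod r))) ^ n = 0 := by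
  obtain ⟨n, hn⟩ := topRes_nil G stable hnil σ⁻¹ k hk
  refine ⟨n, ?_⟩
  have e1 : topRho r G stable σ - 1 = topDual r (topRes G stable σ⁻¹ - 1) := by
    rw [topDual_sub, topDual_one]
    rfl
  have e2 : topRho r G stable σ - (k : AddMonoid.End (↥G →+ ZMod r)) =
      topDual r (topRes G stable σ⁻¹ - (k : AddMonoid.End ↥G)) := by
    rw [topDual_sub, topDual_natCast]
    rfl
  have hc : Commute (topRes G stable σ⁻¹ - 1) (topRes G stable σ⁻¹ - (k : AddMonoid.End ↥G)) :=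
    ((Commute.refl _).sub_left (Commute.one_left _)).sub_right
      ((Nat.cast_commute k _).symm.sub_left (Commute.one_left _))
  rw [e1, e2, ← topDual_pow, ← topDual_pow, ← topDual_mul, ← (hc.pow_pow n n).eq, hn, topDual_zero]

theorem topDual_nontrivial_aux {X : Type*} [AddCommGroup X] (r : ℕ) [Fact r.Prime]
    [Module (ZMod r) X] {x : X} (hx : x ≠ 0) : ∃ lam : X →+ ZMod r, lam x ≠ 0 := by
  by_contra hcon
  push Not at hcon
  exact hx ((Module.forall_dual_apply_eq_zero_iff (ZMod r) x).1 fun φ => hcon φ.toAddMonoidHom)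

/-- the dual of a nonzero group killed by `r` is nonzero -/
theorem topDual_nontrivial {X : Type*} [AddCommGroup X] (r : ℕ) [Fact r.Prime]
    (hX : ∀ x : X, r • x = 0) {x : X} (hx : x ≠ 0) : ∃ lam : X →+ ZMod r, lam x ≠ 0 :=
  @topDual_nontrivial_aux X _ r _ (AddCommGroup.zmodModule hX) x hx

theorem top_pow_val_add {r : ℕ} [NeZero r] {ζ : Qb} (hζ : ζ ^ r = 1) (a b : ZMod r) :
    ζ ^ (a + b).val = ζ ^ a.val * ζ ^ b.val := by
  rw [ZMod.val_add, ← pow_eq_pow_mod _ hζ, pow_add]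

theorem top_pow_val_mul {r : ℕ} {ζ : Qb} (hζ : ζ ^ r = 1) (a b : ZMod r) :
    ζ ^ (a * b).val = (ζ ^ a.val) ^ b.val := by
  rw [ZMod.val_mul, ← pow_eq_pow_mod _ hζ, pow_mul]

theorem top_pow_val_eq_one_iff {r : ℕ} [NeZero r] {ζ : Qb} (hζ : IsPrimitiveRoot ζ r)
    (a : ZMod r) : ζ ^ a.val = 1 ↔ a = 0 := by
  rw [hζ.pow_eq_one_iff_dvd, ← ZMod.val_eq_zero]
  exact ⟨fun h => Nat.eq_zero_of_dvd_of_lt h (ZMod.val_lt a), fun h => h ▸ dvd_zero r⟩

theorem exists_top_piece (r : ℕ) (hr : r.Prime) (ζ : Qb) (hζ : IsPrimitiveRoot ζ r)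
    (G : AddSubgroup J) [Finite G] (hne : G ≠ ⊥) (gtors : ∀ g ∈ G, r • g = 0)
    (stable : ∀ (σ : GQ), ∀ g ∈ G, σ • g ∈ G) (hnil : NilCond ζ G) :
    ∃ H' : AddSubgroup J, H' < G ∧ (∀ (σ : GQ), ∀ x ∈ H', σ • x ∈ H') ∧ Nonempty (Piece r H' G) := by
  classical
  have : Fact r.Prime := ⟨hr⟩
  have : NeZero r := ⟨hr.ne_zero⟩
  have hζr : ζ ^ r = 1 := hζ.pow_eq_one
  -- the dual
  have hfin : Finite (↥G →+ ZMod r) := Finite.of_injective _ DFunLike.coe_injective
  have hGt : ∀ x : ↥G, r • x = 0 := fun x => Subtype.ext (gtors x x.2)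
  have hnt : Nontrivial (↥G →+ ZMod r) := by
    obtain ⟨g, hg0⟩ := (AddSubgroup.ne_bot_iff_exists_ne_zero).1 hne
    obtain ⟨lam, hlam⟩ := topDual_nontrivial r hGt hg0
    exact ⟨lam, 0, fun h => hlam (by rw [h]; rfl)⟩
  have hVt : ∀ v : ↥G →+ ZMod r, r • v = 0 := fun v => AddMonoidHom.ext fun x => by
    rw [AddMonoidHom.nsmul_apply, ← map_nsmul, hGt, map_zero]
    rfl
  let χ₀ : GQ →* (ZMod r)ˣ := hζ.autToPow ℚ
  have hχ₀ : ∀ σ : GQ, ζ ^ ((χ₀ σ : (ZMod r)ˣ) : ZMod r).val = σ ζ := hζ.autToPow_spec ℚ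
  obtain ⟨lam, hlam0, hlam⟩ := exists_eigen r hr hVt (topRho r G stable) χ₀⁻¹ (fun σ =>
    topRho_nil r G stable hnil σ _ (by
      rw [MonoidHom.inv_apply, ← map_inv, hχ₀]))
  -- the behaviour of `lam`
  have hlam' : (∀ (σ : GQ) (x : ↥G), lam (topRes G stable σ x) = lam x) ∨
      (∀ (σ : GQ) (x : ↥G), lam (topRes G stable σ x) = ((χ₀ σ : (ZMod r)ˣ) : ZMod r) * lam x) := by
    rcases hlam with h | h
    · left
      intro σ x
      have := DFunLike.congr_fun (h σ⁻¹) x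
      rwa [topRho_apply, inv_inv] at this
    · right
      intro σ x
      have := DFunLike.congr_fun (h σ⁻¹) x
      rw [topRho_apply, inv_inv, AddMonoidHom.nsmul_apply, MonoidHom.inv_apply, map_inv, inv_inv,
        nsmul_eq_mul, ZMod.natCast_zmod_val] at this
      exact this
  have hmem : ∀ x : J, x ∈ (lam.ker).map G.subtype ↔ ∃ h : x ∈ G, lam ⟨x, h⟩ = 0 := by
    intro x
    constructor
    · rintro ⟨y, hy, rfl⟩
      exact ⟨y.2, hy⟩
    · rintro ⟨h, hx⟩
      exact ⟨⟨x, h⟩, hx, rfl⟩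
  have hle : (lam.ker).map G.subtype ≤ G := fun x hx => ((hmem x).1 hx).1
  refine ⟨(lam.ker).map G.subtype, lt_of_le_of_ne hle ?_, ?_, ⟨?_⟩⟩
  · intro heq
    apply hlam0
    refine AddMonoidHom.ext fun x => ?_
    have hx : (x : J) ∈ (lam.ker).map G.subtype := by
      rw [heq]
      exact x.2
    exact ((hmem _).1 hx).2
  · intro σ x hx
    obtain ⟨h, hx0⟩ := (hmem x).1 hx
    refine (hmem _).2 ⟨stable σ x h, ?_⟩
    show lam (topRes G stable σ ⟨x, h⟩) = 0
    rcases hlam' with h' | h'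
    · rw [h', hx0]
    · rw [h', hx0, mul_zero]
  · have hι : ∀ (x : J) (h : x ∈ G),
        (if h : x ∈ G then ζ ^ (lam ⟨x, h⟩).val else 1) = ζ ^ (lam ⟨x, h⟩).val :=
      fun x h => dif_pos h
    refine
      { ι := fun x => if h : x ∈ G then ζ ^ (lam ⟨x, h⟩).val else 1
        le := hle
        stable := stable
        map_add := ?_
        pow := ?_
        ker := ?_
        equiv := ?_ }
    · intro x hx y hy
      rw [hι _ (G.add_mem hx hy), hι _ hx, hι _ hy, ← top_pow_val_add hζr, ← map_add]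
      rfl
    · intro x hx
      rw [hι _ hx, ← pow_mul, mul_comm, pow_mul, hζr, one_pow]
    · intro x hx
      rw [hι _ hx, top_pow_val_eq_one_iff hζ, hmem]
      exact ⟨fun h => ⟨hx, h⟩, fun h => h.2⟩
    · rcases hlam' with h' | h'
      · left
        intro σ x hx
        rw [hι _ (stable σ x hx), hι _ hx]
        congr 2
        exact h' σ ⟨x, hx⟩
      · right
        intro σ x hx
        rw [hι _ (stable σ x hx), hι _ hx, map_pow, ← hχ₀, ← top_pow_val_mul hζr]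
        congr 2
        exact h' σ ⟨x, hx⟩

end Fermat.Agent.S15.Sel
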