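import Fermat.Agent.S15.Sel.Adm.Top

/-!
# S15/S (ADM, abstract part): `NilCond` gives a chain of pieces `ℤ/r`, `μ_r`

Strong induction on `Nat.card G` (generalising `G`): if `G = ⊥` use `Chain.refl`; otherwise `exists_top_piece` gives `H' < G` stable (finite, killed by `r`,
`NilCond.mono`), `Nat.card H' < Nat.card G` (`AddSubgroup.card_lt_of_lt`-type / `Set.ncard_lt_ncard`), `Chain.step`.

`genEigen`: the generalised eigenspace used as `X0` in the variant where the pieces are typed by their Galois character; `typ_of_nilCond` is the field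
`SelData.typ` for it (`D₁` and `D_k` commute: `Function.Commute.iterate_iterate`; both are additive).
-/

set_option autoImplicit false

namespace Fermat.Agent.S15.Sel

open Fermat.Agent.Lib.InertiaField Fermat.Agent.S15.Q

variable {J : Type*} [AddCommGroup J] [DistribMulAction GQ J]

theorem chain_of_nilCond (r : ℕ) (hr : r.Prime) (ζ : Qb) (hζ : IsPrimitiveRoot ζ r)
    (G : AddSubgroup J) [Finite G] (gtors : ∀ g ∈ G, r • g = 0)
    (stable : ∀ (σ : GQ), ∀ g ∈ G, σ • g ∈ G) (hnil : NilCond ζ G) : Chain r ⊥ G := by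
  induction hn : Nat.card G using Nat.strong_induction_on generalizing G with
  | _ n ih =>
    by_cases hne : G = ⊥
    · subst hne
      exact Chain.refl _
    · obtain ⟨H', hlt, hst, hp⟩ := exists_top_piece r hr ζ hζ G hne gtors stable hnil
      have hfin : Finite H' :=
        Finite.of_injective (AddSubgroup.inclusion hlt.le) (AddSubgroup.inclusion_injective _)
      have hcard : Nat.card H' < n := by
        rw [← hn, ← SetLike.coe_sort_coe H', ← SetLike.coe_sort_coe G, Nat.card_coe_set_eq,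
          Nat.card_coe_set_eq]
        exact Set.ncard_lt_ncard (SetLike.coe_ssubset_coe.mpr hlt) (Set.toFinite _)
      exact Chain.step (ih _ hcard H' (fun g hg => gtors g (hlt.le hg)) hst (hnil.mono hlt.le) rfl)
        hp

omit [DistribMulAction GQ J] in
theorem chainAux_pow_apply (E : AddMonoid.End J) (D : J → J) (h : ∀ x, E x = D x) (n : ℕ)
    (x : J) : (E ^ n) x = D^[n] x := by
  induction n generalizing x with
  | zero => rfl
  | succ n ih =>
    rw [pow_succ, Function.iterate_succ_apply, ← h, ← ih]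
    rfl

/-- `{g ∈ G | (σ₀ - k)^n g = 0}` -/
noncomputable def genEigen (G : AddSubgroup J) (σ₀ : GQ) (k n : ℕ) : AddSubgroup J :=
  G ⊓ AddMonoidHom.ker
    ((DistribMulAction.toAddMonoidEnd GQ J σ₀ - (k : AddMonoid.End J)) ^ n : AddMonoid.End J)

theorem mem_genEigen (G : AddSubgroup J) (σ₀ : GQ) (k n : ℕ) (g : J) :
    g ∈ genEigen G σ₀ k n ↔ g ∈ G ∧ (fun x : J => σ₀ • x - k • x)^[n] g = 0 := by
  have h : ∀ x : J, (DistribMulAction.toAddMonoidEnd GQ J σ₀ - (k : AddMonoid.End J)) x =
      (fun x : J => σ₀ • x - k • x) x := fun x => rfl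
  have h2 : g ∈ genEigen G σ₀ k n ↔ g ∈ G ∧
      ((DistribMulAction.toAddMonoidEnd GQ J σ₀ - (k : AddMonoid.End J)) ^ n :
        AddMonoid.End J) g = 0 := Iff.rfl
  rw [h2, chainAux_pow_apply _ _ h]

theorem typ_of_nilCond (ζ : Qb) (G : AddSubgroup J) (stable : ∀ (σ : GQ), ∀ g ∈ G, σ • g ∈ G)
    (σ₀ : GQ) (k n : ℕ)
    (hn : ∀ g ∈ G, (fun x : J => σ₀ • x - x)^[n] ((fun x : J => σ₀ • x - k • x)^[n] g) = 0) :
    (∀ g ∈ G, (fun x : J => σ₀ • x - x)^[n] g ∈ genEigen G σ₀ k n) ∧
    (∀ g ∈ genEigen G σ₀ k n, (fun x : J => σ₀ • x - k • x)^[n] g = 0) := by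
  refine ⟨fun g hg => (mem_genEigen G σ₀ k n _).mpr ⟨?_, ?_⟩,
    fun g hg => ((mem_genEigen G σ₀ k n g).mp hg).2⟩
  · have hst : ∀ m : ℕ, ∀ x ∈ G, (fun x : J => σ₀ • x - x)^[m] x ∈ G := by
      intro m
      induction m with
      | zero => intro x hx; exact hx
      | succ m ih =>
        intro x hx
        rw [Function.iterate_succ_apply]
        exact ih _ (G.sub_mem (stable σ₀ x hx) hx)
    exact hst n g hg
  · have hcomm : Function.Commute (fun x : J => σ₀ • x - k • x) (fun x : J => σ₀ • x - x) := by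
      intro x
      simp only [smul_sub, smul_comm σ₀ k]
      abel
    rw [(hcomm.iterate_iterate n n).eq]
    exact hn g hg

end Fermat.Agent.S15.Sel
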